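import Fermat.Agent.General.Three.TWSystem
import Fermat.Agent.General.Top.AuxPrime

/-!
# Auxiliary levels with ramification allowed at primes that admit none

Auxiliary Taylor–Wiles levels at every odd `p`, with a set `U` of primes `≡ -1 (mod p)` of non-zero
trace of Frobenius added to the ramification: the same generators suffice.
-/

set_option autoImplicit false

noncomputable section

open IsLocalRing GaloisRep Fermat.Agent.DefRing Fermat.Agent.Deform

namespace Fermat.Agent.General.Three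

open Fermat.Agent.Engine Fermat.Agent.Engine.TW Fermat.Agent.GalCoh

local notation "Qbar" => AlgebraicClosure ℚ

/-- A prime `≡ 1 (mod p)` is none of the primes `≡ -1`. -/
theorem notMem_of_dvd_sub_one {k : Type} [Field k] {p : ℕ} [Fact p.Prime] [CharP k p] (hp : p ≠ 2)
    (U : Finset ℕ) {P : ℕ → Prop} (hU : ∀ R ∈ U, R ≠ p ∧ (R : k) = -1 ∧ P R) {q n : ℕ}
    (hq : q.Prime) (h : p ^ (n + 1) ∣ q - 1) : q ∉ U := fun hqU => by
  obtain ⟨c, hc⟩ := (dvd_pow_self p n.succ_ne_zero).trans h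
  have h1 : (q : k) = 1 := by
    rw [show q = p * c + 1 by have := hq.one_le; omega]
    push_cast
    rw [CharP.cast_eq_zero k p, zero_mul, zero_add]
  have h2 : ((2 : ℕ) : k) = 0 := by
    push_cast
    linear_combination (hU q hqU).2.1 - h1
  exact hp ((Nat.prime_dvd_prime_iff_eq Fact.out Nat.prime_two).mp
    ((CharP.cast_eq_zero_iff k p 2).mp h2))

variable {O : Type} [CommRing O] [IsLocalRing O]

/-- **Auxiliary levels exist** for a closed condition at `p`. -/
theorem exists_auxLevels_oddU [Finite (ResidueField O)] [IsNoetherianRing O]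
    [IsAdicComplete (maximalIdeal O) O] (p : ℕ) [Fact p.Prime] (hp : p ≠ 2)
    [CharP (ResidueField O) p] (hinv : GalCoh.Reciprocity p) (hGW : GalCoh.GreenbergWilesLe p)
    (L₀ : LevelData O) (PB : L₀.RepRing) (h₀ : L₀.IsResidual)
    (habs : ∀ (K : Type) [Field K] [Algebra (ResidueField O) K] (G : Subgroup GQ),
      G.index = 1 ∨ G.index = 2 → ∀ V : Submodule K (Fin 2 → K),
        (∀ σ ∈ G, ∀ x ∈ V,
          ((L₀.D.rbar σ).map (algebraMap (ResidueField O) K)).mulVec x ∈ V) → V = ⊥ ∨ V = ⊤)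
    (χ : GQ → ResidueField O) (hχ : IsCyclotomicModP p χ)
    (hdet : ∀ σ, (L₀.D.rbar σ).det = χ σ)
    (atP : CondAtP L₀.D.rbar p)
    (hfirst : ∀ N : MRep (DualNumber (ResidueField O)), IsCont N →
      (∀ σ, (N σ).map TrivSqZeroExt.fst = L₀.D.rbar σ) →
      (∀ σ, (cocOf L₀.D.rbar N σ).trace = 0) →
      (letI := dualAlgebra (𝒪 := O); L₀.atPlace.mem (L₀.atCoords N)) →
      (fun σ : atP.place.decompositionSubgroup ℚ => cocOf L₀.D.rbar N (σ : GQ)) ∈ atP.cond)
    (T : Finset ℕ) (hpS : p ∉ L₀.Smin ∧ p ∉ T) (hdisj : Disjoint L₀.Smin T)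
    (hprime : ∀ q ∈ L₀.Smin ∪ T, q.Prime) (U : Finset ℕ) (hU : ∀ R ∈ U, R ≠ p ∧ (R : ResidueField O) = -1 ∧
      (∀ A : ValuationSubring Qbar, A.LiesOverPrime R →
        ∀ σ ∈ A.inertiaSubgroupIn ℚ, L₀.D.rbar σ = 1) ∧
      ∀ A : ValuationSubring Qbar, A.LiesOverPrime R → ∀ φ : GQ, A.IsFrobeniusAt φ R →
        (L₀.D.rbar φ).trace ≠ 0)
    (hSigma : L₀.Sigma = L₀.Smin ∪ (T ∪ U) ∪ {p})
    (hram : ∀ q ∈ L₀.Smin, ∃ A : ValuationSubring Qbar, A.LiesOverPrime q ∧
      ∃ σ ∈ A.inertiaSubgroupIn ℚ, L₀.D.rbar σ ≠ 1)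
    (hunr : ∀ q : ℕ, q.Prime → q ∉ L₀.Smin → q ≠ p →
      ∀ A : ValuationSubring Qbar, A.LiesOverPrime q →
        ∀ σ ∈ A.inertiaSubgroupIn ℚ, L₀.D.rbar σ = 1)
    (C : LocalChoices T) (hC : C.Valid p) (r₀ : T) (Φ₀ : T → Matrix (Fin 2) (Fin 2) O)
    (hΦ₀ : ∀ v, (Φ₀ v).map (residue O) = L₀.D.rbar (C.frob v)) :
    ∃ r, T.card ≤ r ∧ ∃ (Q : ℕ → Fin r → ℕ) (X : AuxLevels r r₀ C.frob C.tame Φ₀ L₀ PB),
      X.nExtra = 0 ∧ AuxPrimes p X Q := by
  obtain ⟨r, hr, hQ⟩ := exists_taylorWiles_system_odd p hp hinv hGW L₀.D.rbar h₀.cont.finite_level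
    habs χ hχ hdet atP L₀.Smin T hpS hdisj hprime h₀.eqs.unipotent hram hunr C hC
  choose S hcard hS hbound using hQ
  let Q : ℕ → Fin r → ℕ := fun n i => ((S n).equivFinOfCardEq (hcard n)).symm i
  have hQmem : ∀ n i, Q n i ∈ S n := fun n i => (((S n).equivFinOfCardEq (hcard n)).symm i).2
  have himage : ∀ n, Finset.univ.image (Q n) = S n := fun n => Finset.ext fun q => by
    simp only [Finset.mem_image, Finset.mem_univ, true_and]
    exact ⟨fun ⟨i, hi⟩ => hi ▸ hQmem n i,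
      fun hq => ⟨(S n).equivFinOfCardEq (hcard n) ⟨q, hq⟩, by simp [Q]⟩⟩
  have h2 : (2 : ResidueField O) ≠ 0 := fun h => by
    have h' : ((2 : ℕ) : ResidueField O) = 0 := by simpa using h
    exact hp ((Nat.prime_dvd_prime_iff_eq Fact.out Nat.prime_two).mp
      ((CharP.cast_eq_zero_iff _ p 2).mp h'))
  refine ⟨r, hr, Q, exists_auxLevels_of_bound p Fact.out h2 L₀ PB h₀ atP hfirst T C r₀
    (fun v => ?_) Φ₀ hΦ₀ Q
    (fun n i j h => ((S n).equivFinOfCardEq (hcard n)).symm.injective (Subtype.ext h))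
    (fun n i => (hS n _ (hQmem n i)).1) (fun n i => (hS n _ (hQmem n i)).2.2.1) (fun n i => ?_)
    (fun n i => (hS n _ (hQmem n i)).2.2.2.1) (fun n i => (hS n _ (hQmem n i)).2.2.2.2)
    fun n W hW => hbound n W fun x hx => ?_⟩
  · obtain ⟨A, hA, -, hin, -⟩ := hC v
    exact hunr _ (hprime _ (Finset.mem_union_right _ v.2))
      (fun h => Finset.disjoint_left.1 hdisj h v.2) (fun h => hpS.2 (h ▸ v.2)) A hA _ hin
  · obtain ⟨-, h1, h2', h3, -⟩ := hS n _ (hQmem n i)
    have hQU := notMem_of_dvd_sub_one hp U hU (hS n _ (hQmem n i)).1 h3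
    simp only [hSigma, Finset.mem_union, Finset.mem_singleton, not_or] at h1 ⊢
    exact ⟨⟨h1.1, h1.2, hQU⟩, h2'⟩
  · refine IsTangentPair.erase_aux hp h₀.cont.finite_level U hU (IsTangentPair.mono ?_ (hW x hx))
    rw [himage, hSigma]
    intro q hq
    simp only [Finset.mem_union, Finset.mem_singleton] at hq ⊢
    tauto

/-- **Auxiliary levels with one pinned global variable and one further generator.** -/
theorem exists_auxLevels_crys_oddU [Finite (ResidueField O)] [IsNoetherianRing O]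
    [IsAdicComplete (maximalIdeal O) O] (p : ℕ) [Fact p.Prime] (hp : p ≠ 2)
    [CharP (ResidueField O) p] (hinv : GalCoh.Reciprocity p) (hGW : GalCoh.GreenbergWilesLe p)
    (L₀ : LevelData O) (PB : L₀.RepRing) (h₀ : L₀.IsResidual)
    (habs : ∀ (K : Type) [Field K] [Algebra (ResidueField O) K] (G : Subgroup GQ),
      G.index = 1 ∨ G.index = 2 → ∀ V : Submodule K (Fin 2 → K),
        (∀ σ ∈ G, ∀ x ∈ V,
          ((L₀.D.rbar σ).map (algebraMap (ResidueField O) K)).mulVec x ∈ V) → V = ⊥ ∨ V = ⊤)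
    (χ : GQ → ResidueField O) (hχ : IsCyclotomicModP p χ)
    (hdet : ∀ σ, (L₀.D.rbar σ).det = χ σ)
    (small : CondAtP L₀.D.rbar p) (h3 : Module.finrank (ResidueField O) small.cond ≤ 3)
    (wOf zOf : ∀ {A : Type} [CommRing A] [Algebra O A], MRep A → A)
    (hw : ∀ {A B : Type} [CommRing A] [Algebra O A] [CommRing B] [Algebra O B] (f : A →ₐ[O] B)
      (N : MRep A), f (wOf N) = wOf (mapRep (f : A →+* B) N))
    (hz : ∀ {A B : Type} [CommRing A] [Algebra O A] [CommRing B] [Algebra O B] (f : A →ₐ[O] B)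
      (N : MRep A), f (zOf N) = zOf (mapRep (f : A →+* B) N))
    (hw0 : wOf L₀.D.rbar = 0) (hz0 : zOf L₀.D.rbar = 0)
    (hfirst : letI := dualAlgebra (𝒪 := O); ∀ N : MRep (DualNumber (ResidueField O)), IsCont N →
      (∀ σ, (N σ).map TrivSqZeroExt.fst = L₀.D.rbar σ) →
      (∀ σ, (cocOf L₀.D.rbar N σ).trace = 0) →
      L₀.atPlace.mem (L₀.atCoords N) → wOf N = 0 → zOf N = 0 →
      (fun σ : small.place.decompositionSubgroup ℚ => cocOf L₀.D.rbar N (σ : GQ)) ∈ small.cond)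
    (T : Finset ℕ) (hpS : p ∉ L₀.Smin ∧ p ∉ T) (hdisj : Disjoint L₀.Smin T)
    (hprime : ∀ q ∈ L₀.Smin ∪ T, q.Prime) (U : Finset ℕ) (hU : ∀ R ∈ U, R ≠ p ∧ (R : ResidueField O) = -1 ∧
      (∀ A : ValuationSubring Qbar, A.LiesOverPrime R →
        ∀ σ ∈ A.inertiaSubgroupIn ℚ, L₀.D.rbar σ = 1) ∧
      ∀ A : ValuationSubring Qbar, A.LiesOverPrime R → ∀ φ : GQ, A.IsFrobeniusAt φ R →
        (L₀.D.rbar φ).trace ≠ 0)
    (hSigma : L₀.Sigma = L₀.Smin ∪ (T ∪ U) ∪ {p})
    (hram : ∀ q ∈ L₀.Smin, ∃ A : ValuationSubring Qbar, A.LiesOverPrime q ∧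
      ∃ σ ∈ A.inertiaSubgroupIn ℚ, L₀.D.rbar σ ≠ 1)
    (hunr : ∀ q : ℕ, q.Prime → q ∉ L₀.Smin → q ≠ p →
      ∀ A : ValuationSubring Qbar, A.LiesOverPrime q →
        ∀ σ ∈ A.inertiaSubgroupIn ℚ, L₀.D.rbar σ = 1)
    (C : LocalChoices T) (hC : C.Valid p) (r₀ : T) (Φ₀ : T → Matrix (Fin 2) (Fin 2) O)
    (hΦ₀ : ∀ v, (Φ₀ v).map (residue O) = L₀.D.rbar (C.frob v)) :
    ∃ r, T.card ≤ r ∧ ∃ (Q : ℕ → Fin r → ℕ) (X : AuxLevels r r₀ C.frob C.tame Φ₀ L₀ PB),
      X.nExtra = 1 ∧ AuxPrimes p X Q ∧ (∀ n i, X.extra n i = zOf (X.P n).rep) ∧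
      ∃ l : Fin X.g, ∀ n, X.θ n (MvPowerSeries.X (Sum.inr (Sum.inr l))) =
        MvPowerSeries.C (wOf (X.P n).rep) := by
  classical
  obtain ⟨r, hr, hQ⟩ := exists_taylorWiles_system_small_odd p hp hinv hGW L₀.D.rbar
    h₀.cont.finite_level habs χ hχ hdet small h3 L₀.Smin T hpS hdisj hprime h₀.eqs.unipotent hram hunr C hC
  choose S hcard hS hbound using hQ
  have hT : 0 < T.card := Finset.card_pos.2 ⟨_, r₀.2⟩
  let Q : ℕ → Fin r → ℕ := fun n i => ((S n).equivFinOfCardEq (hcard n)).symm i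
  have hQmem : ∀ n i, Q n i ∈ S n := fun n i => (((S n).equivFinOfCardEq (hcard n)).symm i).2
  have himage : ∀ n, Finset.univ.image (Q n) = S n := fun n => Finset.ext fun q => by
    simp only [Finset.mem_image, Finset.mem_univ, true_and]
    exact ⟨fun ⟨i, hi⟩ => hi ▸ hQmem n i,
      fun hq => ⟨(S n).equivFinOfCardEq (hcard n) ⟨q, hq⟩, by simp [Q]⟩⟩
  have h2 : (2 : ResidueField O) ≠ 0 := fun h => by
    have h' : ((2 : ℕ) : ResidueField O) = 0 := by simpa using h
    exact hp ((Nat.prime_dvd_prime_iff_eq Fact.out Nat.prime_two).mp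
      ((CharP.cast_eq_zero_iff _ p 2).mp h'))
  have htame : ∀ v, L₀.D.rbar (C.tame v) = 1 := fun v => by
    obtain ⟨A, hA, -, hin, -⟩ := hC v
    exact hunr _ (hprime _ (Finset.mem_union_right _ v.2))
      (fun h => Finset.disjoint_left.1 hdisj h v.2) (fun h => hpS.2 (h ▸ v.2)) A hA _ hin
  have hres : ∀ n, (L₀.withSigma (L₀.Sigma ∪ Finset.univ.image (Q n))).IsResidual := fun n =>
    h₀.withSigma Finset.subset_union_left
  let P := fun n => Classical.choice (LevelData.nonempty_repRing (hres n))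
  have hfirst' : ∀ n, letI := dualAlgebra (𝒪 := O);
      ∀ φ : (P n).R →ₐ[O] DualNumber (ResidueField O),
        φ (wOf (P n).rep) = 0 → φ (zOf (P n).rep) = 0 →
        (∀ σ, (mapRep (φ : (P n).R →+* DualNumber (ResidueField O)) (P n).rep σ).map
          TrivSqZeroExt.fst = L₀.D.rbar σ) →
        (∀ σ, (cocOf L₀.D.rbar
          (mapRep (φ : (P n).R →+* DualNumber (ResidueField O)) (P n).rep) σ).trace = 0) →
        (fun σ : small.place.decompositionSubgroup ℚ => cocOf L₀.D.rbar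
          (mapRep (φ : (P n).R →+* DualNumber (ResidueField O)) (P n).rep) (σ : GQ)) ∈ small.cond := by
    intro n
    let := dualAlgebra (𝒪 := O)
    intro φ hwφ hzφ hfst htr
    refine hfirst _ ((P n).isLift.cont.map (φ : (P n).R →+* DualNumber (ResidueField O))
      (isLocalHom_toDual φ)) hfst htr ?_ ((hw φ _).symm.trans hwφ) ((hz φ _).symm.trans hzφ)
    exact (P n).isLift.atPlace.mem_of_hom (P n).instIsLocalHom (P n).residue_surjective
      isArtinianTestAlgebra_dual φ (isLocalHom_toDual φ)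
  choose θ hθl hgen hθlast hθ using fun n =>
    LevelData.RepRing.exists_surjective_locRing_coord (P n) h2 (hres n) small (wOf (P n).rep)
      (zOf (P n).rep) (mem_maximalIdeal_of_natural (P n) wOf hw hw0)
      (mem_maximalIdeal_of_natural (P n) zOf hz hz0) (hfirst' n) T C r₀ (g := r + T.card - 2)
      (fun W hW => by
        obtain ⟨h1, h2'⟩ := hbound n W fun x hx => IsTangentPair.erase_aux hp
          h₀.cont.finite_level U hU <| IsTangentPair.mono (by
          show L₀.Sigma ∪ Finset.univ.image (Q n) ⊆ _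
          rw [himage, hSigma]
          intro q hq
          simp only [Finset.mem_union, Finset.mem_singleton] at hq ⊢
          tauto) (hW x hx)
        exact ⟨h1, by omega⟩) htame Φ₀ hΦ₀
  choose toBase hl hsur hrep using fun n =>
    LevelData.RepRing.exists_map_of_subset Finset.subset_union_left (P n) PB
  have hmem : ∀ n i, Q n i ∉ L₀.Sigma := fun n i => by
    obtain ⟨-, h1, h2', h3, -⟩ := hS n _ (hQmem n i)
    have hQU := notMem_of_dvd_sub_one hp U hU (hS n _ (hQmem n i)).1 h3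
    simp only [hSigma, Finset.mem_union, Finset.mem_singleton, not_or] at h1 ⊢
    exact ⟨⟨h1.1, h1.2, hQU⟩, h2'⟩
  choose A hA using fun n i => Frobenius.exists_liesOverPrime Qbar (hS n _ (hQmem n i)).1
  choose tw htw using fun n i =>
    TameInertia.exists_tameGenerator (Fact.out : p.Prime) (hS n _ (hQmem n i)).1
      (Ne.symm (hS n _ (hQmem n i)).2.2.1) (hA n i)
  have hbase : ∀ n i, (PB.rep (tw n i)).trace = 2 := fun n i => by
    rw [PB.isLift.eqs.unram _ (hS n _ (hQmem n i)).1 (hmem n i) _ (hA n i) _ (htw n i).1,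
      Matrix.trace_one, Fintype.card_fin, Nat.cast_ofNat]
  refine ⟨r, hr, Q,
    { g := r + T.card - 2 + 1
      g_eq := by rw [Fintype.card_coe]; omega
      Sigma := fun n => L₀.Sigma ∪ Finset.univ.image (Q n)
      P := P
      θ := θ
      θ_isLocalHom := hθl
      nExtra := 1
      extra := fun n _ => zOf (P n).rep
      extra_mem := fun n _ => mem_maximalIdeal_of_natural (P n) zOf hz hz0
      generates := hgen
      θ_spec := hθ
      toBase := toBase
      toBase_isLocalHom := hl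
      toBase_surjective := hsur
      toBase_rep := hrep
      tw := tw
      tw_base := hbase }, rfl, ?_, fun _ _ => rfl, Fin.last _, hθlast⟩
  exact ⟨fun n i j h => ((S n).equivFinOfCardEq (hcard n)).symm.injective (Subtype.ext h),
    fun n i => (hS n _ (hQmem n i)).1, fun n i => (hS n _ (hQmem n i)).2.2.1, hmem,
    fun n i => (hS n _ (hQmem n i)).2.2.2.1, fun n i => (hS n _ (hQmem n i)).2.2.2.2,
    fun _ => rfl, fun n i => ⟨A n i, hA n i, htw n i⟩⟩

end Fermat.Agent.General.Three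

end
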