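import Fermat.Agent.Engine.Crys.AtP

/-!
# The conditions at an odd prime `p`

The ordinary, strict and fixed unit root conditions of `Engine/Galois` and `Engine/Crys/AtP` for
every odd `p`, in particular for `p = 3`.
-/

set_option autoImplicit false

noncomputable section

open Fermat.Agent.DefRing Fermat.Agent.LocalRingP

namespace Fermat.Agent.Engine

local notation "Ω" => AlgebraicClosure ℚ

variable {k : Type} [Field k]

/-- An odd prime is at least `3`. -/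
lemma three_le_of_odd {p : ℕ} [Fact p.Prime] (hp : p ≠ 2) : 3 ≤ p := by
  have := (Fact.out : p.Prime).two_le
  omega

/-- The ordinary condition, when the unramified quotient character squared is not `1`. -/
theorem exists_ordinary_condAtP_odd (p : ℕ) [Fact p.Prime] (hp : p ≠ 2) [CharP k p] (ρ : MRep k)
    (hfin : GaloisFactorsThroughFiniteLevel (ρ : GQ →* _))
    (χ : GQ → k) (hχ : IsCyclotomicModP p χ) (hdet : ∀ σ, (ρ σ).det = χ σ)
    (A : ValuationSubring (AlgebraicClosure ℚ)) (hA : A.LiesOverPrime p)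
    (hord : ∀ σ ∈ A.inertiaSubgroupIn ℚ, ∀ τ ∈ A.inertiaSubgroupIn ℚ,
      (ρ σ - χ σ • 1) * (ρ τ - 1) = 0)
    (hdist : ∃ σ ∈ A.decompositionSubgroup ℚ, χ σ = 1 ∧ (ρ σ).trace ^ 2 ≠ 4) :
    ∃ L : CondAtP ρ p, L.place = A ∧ ∀ c : GQ → Matrix (Fin 2) (Fin 2) k, IsAdCocycle ρ c →
      OrdinaryCond ρ χ A c → (fun g : L.place.decompositionSubgroup ℚ => c g) ∈ L.cond := by
  refine ⟨⟨A, hA, condSpace (ρ.comp (A.decompositionSubgroup ℚ).subtype)
    {g | (g : GQ) ∈ A.inertiaSubgroupIn ℚ} (fun _ => 1) (fun g => χ g),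
    fun c hc => ⟨hc.1, hc.2.1⟩, fun X _ => ?_, ?_⟩, rfl, fun c hc he => ?_⟩
  · refine coboundary_mem_condSpace
      (hfin.imp fun L h => ⟨h.1, fun g hg => h.2 g hg⟩) (fun σ hσ τ hτ => ?_) X
    show (ρ σ - χ σ • 1) * (ρ τ - (1 : k) • 1) = 0
    rw [one_smul]
    exact hord σ hσ τ hτ
  · exact finrank_condSpace_le_four (three_le_of_odd hp) ρ hfin χ hχ hdet hA hord _
      (fun _ hg => hg) _ _ (fun _ _ => ⟨rfl, rfl⟩) (Or.inr hdist)
  · refine ⟨fun g h => hc.1 g h, fun g => hc.2.1 g,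
      hc.2.2.imp fun F hF => ⟨hF.1, fun g hg => hF.2 g hg⟩, fun σ hσ τ hτ => ?_⟩
    show c σ * ρ σ * (ρ τ - (1 : k) • 1) + (ρ σ - χ σ • 1) * (c τ * ρ τ) = 0
    rw [one_smul]
    exact he σ hσ τ hτ

/-- The strict condition, for a quotient character `γ` with values `±1`, unramified. -/
theorem exists_strict_condAtP_odd (p : ℕ) [Fact p.Prime] (hp : p ≠ 2) [CharP k p] (ρ : MRep k)
    (hfin : GaloisFactorsThroughFiniteLevel (ρ : GQ →* _))
    (χ γ : GQ → k) (hχ : IsCyclotomicModP p χ) (hdet : ∀ σ, (ρ σ).det = χ σ)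
    (A : ValuationSubring (AlgebraicClosure ℚ)) (hA : A.LiesOverPrime p)
    (_hγ : ∀ σ ∈ A.decompositionSubgroup ℚ, γ σ ^ 2 = 1)
    (hγ1 : ∀ σ ∈ A.inertiaSubgroupIn ℚ, γ σ = 1)
    (hord : ∀ σ ∈ A.decompositionSubgroup ℚ, ∀ τ ∈ A.decompositionSubgroup ℚ,
      (ρ σ - (γ σ * χ σ) • 1) * (ρ τ - γ τ • 1) = 0) :
    ∃ L : CondAtP ρ p, L.place = A ∧ ∀ c : GQ → Matrix (Fin 2) (Fin 2) k, IsAdCocycle ρ c →
      StrictCond ρ χ γ A c → (fun g : L.place.decompositionSubgroup ℚ => c g) ∈ L.cond := by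
  refine ⟨⟨A, hA, condSpace (ρ.comp (A.decompositionSubgroup ℚ).subtype) Set.univ (fun g => γ g)
    (fun g => γ g * χ g), fun c hc => ⟨hc.1, hc.2.1⟩, fun X _ => ?_, ?_⟩, rfl, fun c hc he => ?_⟩
  · exact coboundary_mem_condSpace
      (hfin.imp fun L h => ⟨h.1, fun g hg => h.2 g hg⟩) (fun σ _ τ _ => hord σ σ.2 τ τ.2) X
  · refine finrank_condSpace_le_four (three_le_of_odd hp) ρ hfin χ hχ hdet hA (fun σ hσ τ hτ => ?_) _
      (fun _ _ => Set.mem_univ _) _ _
      (fun g hg => ⟨hγ1 g hg, by rw [hγ1 g hg, one_mul]⟩) (Or.inl rfl)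
    have := hord σ (MultRed.inertia_mem_decomposition hσ) τ (MultRed.inertia_mem_decomposition hτ)
    rwa [hγ1 σ hσ, hγ1 τ hτ, one_mul, one_smul] at this
  · exact ⟨fun g h => hc.1 g h, fun g => hc.2.1 g,
      hc.2.2.imp fun F hF => ⟨hF.1, fun g hg => hF.2 g hg⟩, fun σ _ τ _ => he σ σ.2 τ τ.2⟩

/-- **The first order bound with fixed unit root.** -/
theorem exists_rootDefect_condAtP_odd (p : ℕ) [Fact p.Prime] (hp : p ≠ 2) [CharP k p] (ρ : MRep k)
    (hfin : GaloisFactorsThroughFiniteLevel (ρ : GQ →* _))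
    (χ : GQ → k) (hχ : IsCyclotomicModP p χ) (hdet : ∀ σ, (ρ σ).det = χ σ)
    (A : ValuationSubring Ω) (hA : A.LiesOverPrime p)
    (hord : ∀ σ ∈ A.inertiaSubgroupIn ℚ, ∀ τ ∈ A.inertiaSubgroupIn ℚ,
      (ρ σ - χ σ • 1) * (ρ τ - 1) = 0)
    {σ₀ φ s : GQ} (hσ₀ : σ₀ ∈ A.inertiaSubgroupIn ℚ) (hχσ₀ : χ σ₀ ≠ 1)
    (hφ : A.IsFrobeniusAt φ p) (hs : IsKummerElement p A s) (hρs : ρ s = 1)
    (hroot : (χ σ₀ * (ρ φ).trace - (ρ (σ₀ * φ)).trace) ^ 2 = (χ σ₀ - 1) ^ 2) :
    ∃ L : CondAtP ρ p, L.place = A ∧ Module.finrank k L.cond ≤ 3 ∧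
      ∀ c : GQ → Matrix (Fin 2) (Fin 2) k, IsAdCocycle ρ c → OrdinaryCond ρ χ A c → c s = 0 →
        χ σ₀ * (c φ * ρ φ).trace - (c (σ₀ * φ) * ρ (σ₀ * φ)).trace = 0 →
        (fun g : L.place.decompositionSubgroup ℚ => c g) ∈ L.cond := by
  classical
  have hpp : p.Prime := Fact.out
  have : NeZero p := ⟨hpp.ne_zero⟩
  let _ : Algebra (ZMod p) k := ZMod.algebra k p
  have : NeZero ((p : ℕ) : Ω) := ⟨Nat.cast_ne_zero.mpr hpp.ne_zero⟩
  obtain ⟨ζ, hζ⟩ := HasEnoughRootsOfUnity.exists_primitiveRoot (AlgebraicClosure ℚ) p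
  let D := A.decompositionSubgroup ℚ
  let ω : D →* ZMod p := (Units.coeHom (ZMod p)).comp ((hζ.autToPow ℚ).comp D.subtype)
  have hω : ∀ g : D, (g : GQ) ζ = ζ ^ (ω g).val := fun g =>
    (hζ.autToPow_spec ℚ (g : GQ)).symm
  have hχω : ∀ g : D, χ g = algebraMap (ZMod p) k (ω g) := fun g => by
    rw [hχ (g : GQ) (ω g).val fun μ hμ => ?_, ← map_natCast (algebraMap (ZMod p) k),
      ZMod.natCast_rightInverse (ω g)]
    obtain ⟨i, -, rfl⟩ := hζ.eq_pow_of_pow_eq_one hμ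
    rw [map_pow, hω, ← pow_mul, ← pow_mul, mul_comm]
  let σ' : D := ⟨σ₀, MultRed.inertia_mem_decomposition hσ₀⟩
  let φ' : D := ⟨φ, hφ.mem_decompositionSubgroup⟩
  let s' : D := ⟨s, MultRed.inertia_mem_decomposition hs.mem_inertia⟩
  have hωσ : ω σ' ≠ 1 := fun e => hχσ₀ (by rw [show χ σ₀ = χ (σ' : GQ) from rfl, hχω, e, map_one])
  set w := algebraMap (ZMod p) k (ω σ') with hw
  have hw1 : w ≠ 1 := fun e =>
    hωσ ((algebraMap (ZMod p) k).injective (e.trans (map_one _).symm))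
  have hχw : χ σ₀ = w := hχω σ'
  obtain ⟨P, Q, hPQ, hQP, hdiag⟩ := exists_diag_basis (fun e => by
      have h0 := hω σ'
      rw [(algebraMap (ZMod p) k).injective (e.trans (map_zero _).symm), ZMod.val_zero,
        pow_zero] at h0
      exact hζ.ne_one hpp.one_lt ((AlgEquiv.injective (σ' : GQ)) (h0.trans (map_one _).symm)))
    hw1 ((hdet σ₀).trans hχw) (by rw [hw, ← hχω σ']; exact hord σ₀ hσ₀ σ₀ hσ₀)
  let ρD : D →* Matrix (Fin 2) (Fin 2) k := ρ.comp D.subtype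
  let r : D →* Matrix (Fin 2) (Fin 2) k :=
    { toFun := fun g => Q * ρ g * P
      map_one' := by rw [Subgroup.coe_one, map_one, mul_one, hQP]
      map_mul' := fun a b => by
        rw [Subgroup.coe_mul, map_mul, show Q * ρ a * P * (Q * ρ b * P) =
          Q * (ρ a * ((P * Q) * ρ b)) * P by noncomm_ring, hPQ, one_mul] }
  have hrE : ∀ g, r g = Q * ρ g * P := fun g => rfl
  have hrdet : ∀ g, (r g).det = algebraMap (ZMod p) k (ω g) := fun g => by
    have h1 : Q.det * P.det = 1 := by rw [← Matrix.det_mul, hQP, Matrix.det_one]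
    rw [hrE, Matrix.det_mul, Matrix.det_mul, hdet, hχω]
    linear_combination algebraMap (ZMod p) k (ω g) * h1
  have hσ₀r : r σ' = !![w, 0; 0, 1] := hdiag
  have hlow : ∀ τ : D, (τ : GQ) ∈ A.inertiaSubgroupIn ℚ → r τ 1 0 = 0 ∧ r τ 1 1 = 1 := by
    intro τ hτ
    have h1 : (r σ' - w • 1) * (r τ - 1) = 0 := by
      have h0 : Q * ((ρ σ₀ - χ σ₀ • 1) * (ρ τ - 1)) * P = 0 := by
        rw [hord σ₀ hσ₀ τ hτ, mul_zero, zero_mul]
      rw [hrE, hrE, ← h0, hχw]
      have e : ∀ M : Matrix (Fin 2) (Fin 2) k, M * P * (Q * (ρ τ - 1) * P) = M * (ρ τ - 1) * P :=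
        fun M => by
          rw [show M * P * (Q * (ρ τ - 1) * P) = M * ((P * Q) * (ρ τ - 1)) * P by noncomm_ring,
            hPQ, one_mul]
      rw [show Q * ρ (σ' : GQ) * P - w • (1 : Matrix (Fin 2) (Fin 2) k) =
          Q * (ρ σ₀ - w • 1) * P by
        rw [Matrix.mul_sub, Matrix.sub_mul, Matrix.mul_smul, mul_one, Matrix.smul_mul, hQP]]
      rw [show Q * ρ (τ : GQ) * P - 1 = Q * (ρ τ - 1) * P by
        rw [Matrix.mul_sub, Matrix.sub_mul, mul_one, hQP], e, mul_assoc Q]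
    rw [hσ₀r] at h1
    have hne : (1 : k) - w ≠ 0 := sub_ne_zero.mpr (Ne.symm hw1)
    constructor
    · simpa [Matrix.mul_apply, Fin.sum_univ_two, hne] using congrFun (congrFun h1 1) 0
    · simpa [Matrix.mul_apply, Fin.sum_univ_two, hne, sub_eq_zero] using
        congrFun (congrFun h1 1) 1
  have htri : ∀ g, r g 1 0 = 0 := by
    intro g
    have hτ := LocalRingP.conj_mem_inertiaSubgroupIn (g := g) (σ := σ') hσ₀
    have e : r (g * σ' * g⁻¹) * r g = r g * r σ' := by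
      rw [← map_mul, ← map_mul, inv_mul_cancel_right]
    rw [hσ₀r] at e
    have e1 := congrFun (congrFun e 1) 0
    obtain ⟨h10, h11⟩ := hlow _ hτ
    simp [Matrix.mul_apply, Fin.sum_univ_two, h10, h11, -map_mul] at e1
    by_contra hne
    exact hw1 (mul_left_cancel₀ hne (e1.symm.trans (mul_one _).symm))
  have hρlev : FiniteLevel A 1 ρD := hfin.imp fun L h => ⟨h.1, fun g hg => h.2 g hg⟩
  have h : Adapted r ω σ' :=
    { mem := hσ₀
      ne := hωσ
      diag := hσ₀r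
      tri := htri
      unit := fun g hg => (hlow g hg).2
      det := fun g => by rw [← hrdet, Matrix.det_fin_two, htri, mul_zero, sub_zero]
      level := by
        obtain ⟨L, hL, hρL⟩ := hfin
        exact ⟨L, hL, fun g hg => by rw [hrE, hρL g hg, mul_one, hQP]⟩ }
  have htrace : ∀ g : D, (ρ g).trace = (r g).trace := fun g => by
    rw [hrE, Matrix.trace_mul_cycle, hPQ, one_mul]
  -- the twist is trivial
  have htwist : ∀ g, h.twist g = 1 := by
    have h1 : r φ' 1 1 ^ 2 = 1 := by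
      rw [show σ₀ * φ = ((σ' * φ' : D) : GQ) from rfl, show φ = ((φ' : D) : GQ) from rfl, htrace,
        htrace, map_mul, hσ₀r, hχw, Matrix.trace_fin_two, Matrix.trace_fin_two] at hroot
      simp [Matrix.mul_apply, Fin.sum_univ_two] at hroot
      refine mul_left_cancel₀ (pow_ne_zero 2 (sub_ne_zero.mpr hw1)) ?_
      linear_combination hroot
    have h2 : h.twist φ' = 1 := by
      have := congrArg (fun x : k => x ^ 2) (h.inv11 φ')
      simp only [mul_pow, h1, one_mul, one_pow] at this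
      exact this
    intro g
    obtain ⟨n, hn⟩ := exists_eq_pow_of_trivial_on_inertia hpp hA φ' hφ h.twist h.twist_level
      h.twist_inertia g
    rw [hn, h2, one_pow]
  set S : Set D := {g | (g : GQ) ∈ A.inertiaSubgroupIn ℚ} with hS
  set χ' : D → k := fun g => χ g with hχ'def
  set V := condSpace r S (fun _ => 1) χ' ⊓ rootSpace r w σ' φ' s' with hV
  obtain ⟨hVfin, hV3⟩ : FiniteDimensional k V ∧ Module.finrank k V ≤ 3 :=
    finrank_rootSpace_le (three_le_of_odd hp) hA hζ hω h hφ hσ₀ (fun _ hg => hg) rfl (hχω σ') s'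
      (exists_twisted_kummer hζ hω h.twist htwist hωσ s' hs)
  set L := condSpace ρD S (fun _ => 1) χ' ⊓ rootSpace ρD w σ' φ' s' with hL
  let conjQ : (D → Matrix (Fin 2) (Fin 2) k) →ₗ[k] (D → Matrix (Fin 2) (Fin 2) k) :=
    { toFun := fun c g => Q * c g * P
      map_add' := fun a b => by funext g; simp [Matrix.mul_add, Matrix.add_mul]
      map_smul' := fun t a => by funext g; simp }
  have hmaps : ∀ c ∈ L, conjQ c ∈ V := by
    rintro c ⟨⟨hmul, htr, ⟨F, hF, hcF⟩, heq⟩, hcs, hroot'⟩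
    have e2 : ∀ g, Q * c g * P * r g = Q * (c g * ρD g) * P := fun g => by
      rw [hrE, show Q * c g * P * (Q * ρ (g : GQ) * P) =
        Q * (c g * (P * Q) * ρ g) * P by noncomm_ring, hPQ, mul_one]
      rfl
    refine ⟨⟨fun a b => ?_, fun g => ?_, ⟨F, hF, fun g hg => ?_⟩, fun σ hσ τ hτ => ?_⟩, ?_, ?_⟩
    · show Q * c (a * b) * P = Q * c a * P + r a * (Q * c b * P) * r a⁻¹
      rw [hmul, hrE, hrE, show Q * ρ (a : GQ) * P * (Q * c b * P) *
          (Q * ρ ((a⁻¹ : D) : GQ) * P) =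
        Q * (ρ a * (P * Q) * c b * (P * Q) * ρ ((a⁻¹ : D) : GQ)) * P by
          noncomm_ring, hPQ, mul_one, mul_one, Matrix.mul_add, Matrix.add_mul]
      rfl
    · show (Q * c g * P).trace = 0
      rw [Matrix.trace_mul_cycle, hPQ, one_mul, htr]
    · show Q * c g * P = 0
      rw [hcF g hg, mul_zero, zero_mul]
    · have e : condEq r (fun _ => 1) χ' (conjQ c) σ τ =
          Q * condEq ρD (fun _ => 1) χ' c σ τ * P := by
        have e1 : ∀ (g : D) (x : k),
            r g - x • (1 : Matrix (Fin 2) (Fin 2) k) = Q * (ρD g - x • 1) * P := fun g x => by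
          rw [hrE, Matrix.mul_sub, Matrix.sub_mul, Matrix.mul_smul, mul_one, Matrix.smul_mul, hQP]
          rfl
        have e3 : ∀ X Y : Matrix (Fin 2) (Fin 2) k, Q * X * P * (Q * Y * P) = Q * (X * Y) * P :=
          fun X Y => by
            rw [show Q * X * P * (Q * Y * P) = Q * (X * (P * Q) * Y) * P by noncomm_ring, hPQ,
              mul_one]
        show Q * c σ * P * r σ * (r τ - (1 : k) • 1) + (r σ - χ' σ • 1) * (Q * c τ * P * r τ) = _
        rw [e1, e1, e2, e2, e3, e3, condEq, Matrix.mul_add, Matrix.add_mul]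
      rw [e, heq σ hσ τ hτ, mul_zero, zero_mul]
    · show Q * c s' * P = 0
      rw [hcs, mul_zero, zero_mul]
    · show w * (Q * c φ' * P * r φ').trace - (Q * c (σ' * φ') * P * r (σ' * φ')).trace = 0
      rw [e2, e2, Matrix.trace_mul_cycle, hPQ, one_mul, Matrix.trace_mul_cycle, hPQ, one_mul]
      exact hroot'
  have hinj : Function.Injective (conjQ.restrict hmaps) := by
    intro c c' hcc
    refine Subtype.ext (funext fun g => ?_)
    have h1 : Q * (c : D → Matrix (Fin 2) (Fin 2) k) g * P =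
        Q * (c' : D → Matrix (Fin 2) (Fin 2) k) g * P :=
      congrFun (congrArg Subtype.val hcc) g
    have h2 := congrArg (fun X => P * X * Q) h1
    simpa only [← mul_assoc, hPQ, one_mul, mul_assoc _ P Q, mul_one] using h2
  have hLfin : FiniteDimensional k L := Module.Finite.of_injective _ hinj
  have hL3 : Module.finrank k L ≤ 3 :=
    (LinearMap.finrank_le_finrank_of_injective hinj).trans hV3
  refine ⟨⟨A, hA, L, fun c hc => ⟨hc.1.1, hc.1.2.1⟩, fun X _ => ⟨?_, ?_, ?_⟩,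
    hLfin, hL3.trans (by omega)⟩, rfl, hL3, fun c hc he hcs hroot' => ?_⟩
  · refine coboundary_mem_condSpace (ρ := ρD) hρlev (fun σ hσ τ hτ => ?_) X
    show (ρ σ - χ σ • 1) * (ρ τ - (1 : k) • 1) = 0
    rw [one_smul]
    exact hord σ hσ τ hτ
  · show ρ s * X * ρ s⁻¹ - X = 0
    have h2 : ρ s⁻¹ = 1 := by
      have := map_mul ρ s s⁻¹
      rwa [mul_inv_cancel, map_one, hρs, one_mul, eq_comm] at this
    rw [hρs, h2, one_mul, mul_one, sub_self]
  · have e : ∀ g : D, ((ρD g * X * ρD g⁻¹ - X) * ρD g).trace = 0 := fun g => by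
      rw [sub_mul, mul_assoc, LocalRingP.rho_inv_mul, mul_one, Matrix.trace_sub,
        Matrix.trace_mul_comm, sub_self]
    show w * ((ρD φ' * X * ρD φ'⁻¹ - X) * ρD φ').trace -
      ((ρD (σ' * φ') * X * ρD (σ' * φ')⁻¹ - X) * ρD (σ' * φ')).trace = 0
    rw [e, e, mul_zero, sub_zero]
  · refine ⟨⟨fun g h => hc.1 g h, fun g => hc.2.1 g,
      hc.2.2.imp fun F hF => ⟨hF.1, fun g hg => hF.2 g hg⟩, fun σ hσ τ hτ => ?_⟩, hcs, ?_⟩
    · show c σ * ρ σ * (ρ τ - (1 : k) • 1) + (ρ σ - χ σ • 1) * (c τ * ρ τ) = 0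
      rw [one_smul]
      exact he σ hσ τ hτ
    · show w * (c φ * ρ φ).trace - (c (σ₀ * φ) * ρ (σ₀ * φ)).trace = 0
      rw [← hχw]
      exact hroot'

end Fermat.Agent.Engine
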