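import Fermat.Agent.Engine.TWCrys.AuxLevels
import Fermat.Agent.RowS56.Vanishing.Image

/-!
# Taylor–Wiles systems at every odd prime

`H¹` of the image with values in `ad⁰(1)` vanishes at every odd `p` for a representation absolutely
irreducible on subgroups of index two, so the Taylor–Wiles systems need neither `5 ≤ p` nor a
condition on the image.  This is what `p = 3` uses.
-/

set_option autoImplicit false

noncomputable section

open IsLocalRing GaloisRep Fermat.Agent.DefRing Fermat.Agent.Deform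

namespace Fermat.Agent.General.Three

open Fermat.Agent.Engine Fermat.Agent.Engine.TW Fermat.Agent.GalCoh

local notation "Qbar" => AlgebraicClosure ℚ

/-- `H¹(image, ad⁰(1)) = 0` at every odd prime. -/
theorem h1Vanishing_odd {k : Type} [Field k] [Finite k] {p : ℕ} [Fact p.Prime]
    [Algebra (ZMod p) k] [CharP k p] {ρ : MRep k} {χ : GQ → k} (hp : p ≠ 2)
    (hfin : GaloisFactorsThroughFiniteLevel (ρ : GQ →* _))
    (habs : Engine.TW.IndexTwoIrreducible ρ) (hχ : IsCyclotomicModP p χ)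
    (hdet : ∀ σ, (ρ σ).det = χ σ) : H1Vanishing p ρ :=
  fun _ hy hker => RowS56.mem_B1_of_kills_rhoKer hχ hdet hfin habs hp hy hker

open Module in
/-- **Taylor–Wiles primes with the framed bound**, at every odd prime. -/
theorem exists_taylorWiles_system_odd {k : Type} [Field k] [Finite k] (p : ℕ) [Fact p.Prime]
    (hp : p ≠ 2) [CharP k p] (hinv : GalCoh.Reciprocity p) (hGW : GreenbergWilesLe p)
    (ρ : MRep k) (hfin : GaloisFactorsThroughFiniteLevel (ρ : GQ →* _))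
    (habs : ∀ (K : Type) [Field K] [Algebra k K] (G : Subgroup GQ), G.index = 1 ∨ G.index = 2 →
      ∀ V : Submodule K (Fin 2 → K),
        (∀ σ ∈ G, ∀ x ∈ V, ((ρ σ).map (algebraMap k K)).mulVec x ∈ V) → V = ⊥ ∨ V = ⊤)
    (χ : GQ → k) (hχ : IsCyclotomicModP p χ) (hdet : ∀ σ, (ρ σ).det = χ σ)
    (atP : CondAtP ρ p)
    (Smin T : Finset ℕ) (hpS : p ∉ Smin ∧ p ∉ T) (hdisj : Disjoint Smin T)
    (hprime : ∀ q ∈ Smin ∪ T, q.Prime)
    (hmin : ∀ q ∈ Smin, ∀ A : ValuationSubring (AlgebraicClosure ℚ), A.LiesOverPrime q →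
      ∀ σ ∈ A.inertiaSubgroupIn ℚ, (ρ σ - 1) * (ρ σ - 1) = 0)
    (hram : ∀ q ∈ Smin, ∃ A : ValuationSubring (AlgebraicClosure ℚ), A.LiesOverPrime q ∧
      ∃ σ ∈ A.inertiaSubgroupIn ℚ, ρ σ ≠ 1)
    (hunr : ∀ q : ℕ, q.Prime → q ∉ Smin → q ≠ p →
      ∀ A : ValuationSubring (AlgebraicClosure ℚ), A.LiesOverPrime q →
        ∀ σ ∈ A.inertiaSubgroupIn ℚ, ρ σ = 1)
    (C : LocalChoices T) (hC : C.Valid p) :
    ∃ r : ℕ, T.card ≤ r ∧ ∀ n : ℕ, ∃ Q : Finset ℕ, Q.card = r ∧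
      (∀ q ∈ Q, q.Prime ∧ q ∉ Smin ∪ T ∧ q ≠ p ∧ p ^ (n + 1) ∣ q - 1 ∧
        ∀ A : ValuationSubring (AlgebraicClosure ℚ), A.LiesOverPrime q →
          ∀ φ : GQ, A.IsFrobeniusAt φ q → (ρ φ).trace ^ 2 ≠ 4 * (ρ φ).det) ∧
      ∀ W : Submodule k (TangentPair k T),
        (∀ x ∈ W, IsTangentPair ρ Smin (Smin ∪ T ∪ Q ∪ {p}) T C atP x) →
        FiniteDimensional k W ∧ Module.finrank k W ≤ r + T.card + 3 := by
  let : Algebra (ZMod p) k := ZMod.algebra k p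
  exact exists_taylorWiles_system_of_h1 p hp hinv hGW ρ hfin habs χ hχ hdet
    (h1Vanishing_odd hp hfin habs hχ hdet) atP Smin T hpS hdisj hprime hmin hram hunr C hC

open Module in
/-- **Taylor–Wiles primes killing the dual of a condition with no excess at `p`**: the framed
pairs are one fewer than in `exists_taylorWiles_system_of`. -/
theorem exists_taylorWiles_system_small_odd {k : Type} [Field k] [Finite k] (p : ℕ) [Fact p.Prime]
    (hp : p ≠ 2) [CharP k p] (hinv : GalCoh.Reciprocity p) (hGW : GreenbergWilesLe p)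
    (ρ : MRep k) (hfin : GaloisFactorsThroughFiniteLevel (ρ : GQ →* _))
    (habs : ∀ (K : Type) [Field K] [Algebra k K] (G : Subgroup GQ), G.index = 1 ∨ G.index = 2 →
      ∀ V : Submodule K (Fin 2 → K),
        (∀ σ ∈ G, ∀ x ∈ V, ((ρ σ).map (algebraMap k K)).mulVec x ∈ V) → V = ⊥ ∨ V = ⊤)
    (χ : GQ → k) (hχ : IsCyclotomicModP p χ) (hdet : ∀ σ, (ρ σ).det = χ σ)
    (atP : CondAtP ρ p) (h3 : finrank k atP.cond ≤ 3)
    (Smin T : Finset ℕ) (hpS : p ∉ Smin ∧ p ∉ T) (hdisj : Disjoint Smin T)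
    (hprime : ∀ q ∈ Smin ∪ T, q.Prime)
    (hmin : ∀ q ∈ Smin, ∀ A : ValuationSubring (AlgebraicClosure ℚ), A.LiesOverPrime q →
      ∀ σ ∈ A.inertiaSubgroupIn ℚ, (ρ σ - 1) * (ρ σ - 1) = 0)
    (hram : ∀ q ∈ Smin, ∃ A : ValuationSubring (AlgebraicClosure ℚ), A.LiesOverPrime q ∧
      ∃ σ ∈ A.inertiaSubgroupIn ℚ, ρ σ ≠ 1)
    (hunr : ∀ q : ℕ, q.Prime → q ∉ Smin → q ≠ p →
      ∀ A : ValuationSubring (AlgebraicClosure ℚ), A.LiesOverPrime q →
        ∀ σ ∈ A.inertiaSubgroupIn ℚ, ρ σ = 1)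
    (C : LocalChoices T) (hC : C.Valid p) :
    ∃ r : ℕ, T.card ≤ r ∧ ∀ n : ℕ, ∃ Q : Finset ℕ, Q.card = r ∧
      (∀ q ∈ Q, q.Prime ∧ q ∉ Smin ∪ T ∧ q ≠ p ∧ p ^ (n + 1) ∣ q - 1 ∧
        ∀ A : ValuationSubring (AlgebraicClosure ℚ), A.LiesOverPrime q →
          ∀ φ : GQ, A.IsFrobeniusAt φ q → (ρ φ).trace ^ 2 ≠ 4 * (ρ φ).det) ∧
      ∀ W : Submodule k (TangentPair k T),
        (∀ x ∈ W, IsTangentPair ρ Smin (Smin ∪ T ∪ Q ∪ {p}) T C atP x) →
        FiniteDimensional k W ∧ Module.finrank k W + 1 ≤ r + T.card + 3 := by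
  let : Algebra (ZMod p) k := ZMod.algebra k p
  have : FiniteDimensional (ZMod p) k := Module.Finite.of_finite
  have H : TWHyp p ρ χ Smin T :=
    ⟨hfin, habs, hp, hχ, hdet, hpS, hdisj, hprime, hmin, hram, hunr⟩
  obtain ⟨inv, hinj, hsum⟩ := hinv
  have hrec : InvFamily.IsReciprocal inv := ⟨hinj, hsum⟩
  obtain ⟨-, hdfin, -⟩ := finrank_sel_le (atP := atP) (Q := ∅) H hC hGW hrec (by simp)
  refine ⟨max T.card (Nat.card (dualSel H inv atP ∅)), le_max_left _ _, fun n => ?_⟩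
  obtain ⟨Q, hcard, hQ, hzero⟩ := exists_killing_set (atP := atP) H hrec
    (h1Vanishing_odd hp hfin habs hχ hdet) n
    (max T.card (Nat.card (dualSel H inv atP ∅))) (le_max_right _ _)
  refine ⟨Q, hcard, fun q hq => ?_, fun W hW => ?_⟩
  · obtain ⟨h1, h2, h3', h4, h5⟩ := hQ q hq
    exact ⟨h1, h2, h3', h4, h5⟩
  obtain ⟨hsfin, hle⟩ := finrank_sel_small (atP := atP) H hC h3 (fun q hq =>
    ⟨(hQ q hq).1, (hQ q hq).2.1, (hQ q hq).2.2.1, n, (hQ q hq).2.2.2⟩) hGW hrec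
  obtain ⟨hWfin, hWle⟩ := finrank_tangentPairs_le H hC W hW
  refine ⟨hWfin, ?_⟩
  rw [hzero, finrank_bot, zero_add, hcard] at hle
  refine Nat.le_of_mul_le_mul_left ?_ (Module.finrank_pos (R := ZMod p) (M := k))
  rw [Nat.mul_add, Nat.mul_add] at hWle
  rw [Nat.mul_add, Nat.mul_add, Nat.mul_add, Nat.mul_one]
  omega


end Fermat.Agent.General.Three
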